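import Fermat.Agent.S31.H982.Transfer
import Fermat.Prelude.Def_GaloisRep_LocalConditions

/-!
# Row S31/S34 (helper982): transfer of integral characteristic polynomials

If at every `p`-adic point of the Hecke algebra the attached representation has
`charpoly ρ(σ) = X ^ 2 - a X + d` for fixed integers `a, d`, then the same holds for the
representation of a Hecke–Galois datum over `T`, as soon as `2` is a non-zero-divisor of `T`
(e.g. `T` free over a domain of characteristic zero).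

With `a = 2`, `d = 1` this is the shape of row S34 (`IsUnipotentOnInertiaAt`).
-/

set_option autoImplicit false

open Polynomial

namespace Fermat.Agent.S31.H982

open Fermat.Agent.S31

section Rank2

variable {R : Type*} [CommRing R] {M : Type*} [AddCommGroup M] [Module R M]
  [Module.Free R M] [Module.Finite R M]

/-- The characteristic polynomial in rank 2. -/
theorem charpoly_eq_of_finrank_two (hrk : Module.finrank R M = 2) (f : Module.End R M) :
    f.charpoly = X ^ 2 - C (LinearMap.trace R M f) * X + C (LinearMap.det f) := by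
  rcases subsingleton_or_nontrivial R with hR | hR
  · exact Subsingleton.elim _ _
  let b : Module.Basis (Fin 2) R M := Module.finBasisOfFinrankEq R M hrk
  rw [← LinearMap.charpoly_toMatrix f b, Matrix.charpoly_fin_two,
    ← LinearMap.trace_eq_matrix_trace R b f, LinearMap.det_toMatrix b f]

/-- In rank 2, `tr (f ^ 2) = (tr f) ^ 2 - 2 det f`. -/
theorem trace_sq_of_finrank_two (hrk : Module.finrank R M = 2) (f : Module.End R M) :
    LinearMap.trace R M (f ^ 2) =
      LinearMap.trace R M f * LinearMap.trace R M f - LinearMap.det f * 2 := by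
  rw [trace_pow_of_charpoly' hrk f _ _ (charpoly_eq_of_finrank_two hrk f) 2, powTr_add_two,
    powTr_one, powTr_zero]

end Rank2

section Main

variable {p : ℕ} {N : ℕ} [NeZero N] {S : Finset ℕ}
  {𝒪 : Type} [CommRing 𝒪] [IsDomain 𝒪] [IsDiscreteValuationRing 𝒪]
  [IsAdicComplete (IsLocalRing.maximalIdeal 𝒪) 𝒪]
  {θ : CuspForm.heckeAlgebra N 2 (↑S : Set ℕ) →+* IsLocalRing.ResidueField 𝒪}
  {T : Type} [CommRing T] [IsLocalRing T] [IsNoetherianRing T]
  [IsAdicComplete (IsLocalRing.maximalIdeal T) T] [Algebra 𝒪 T] [IsLocalHom (algebraMap 𝒪 T)]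
  [Module.Finite 𝒪 T] [Module.Free 𝒪 T]

omit [IsAdicComplete (IsLocalRing.maximalIdeal 𝒪) 𝒪] [IsLocalRing T] [IsNoetherianRing T]
  [IsAdicComplete (IsLocalRing.maximalIdeal T) T] [IsLocalHom (algebraMap 𝒪 T)]
  [Module.Finite 𝒪 T] [IsDiscreteValuationRing 𝒪] in
/-- `2` is a non-zero-divisor of a free algebra over a domain of characteristic zero. -/
theorem two_mul_eq_zero_of_free [CharZero 𝒪] (t : T) (h : 2 * t = 0) : t = 0 := by
  have h1 : (2 : 𝒪) • t = 0 := by
    rw [Algebra.smul_def, map_ofNat]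
    exact h
  rcases smul_eq_zero.mp h1 with h2 | h2
  · exact absurd h2 two_ne_zero
  · exact h2

/-- Transfer of `tr ρ(σ) = c` for an integer `c`. -/
theorem trace_eq_int_transfer (hcheb : ChebStatement)
    (hp𝒪 : (p : 𝒪) ∈ IsLocalRing.maximalIdeal 𝒪)
    (hNS : ∀ q : ℕ, q.Prime → q ∣ N → q ∈ S)
    (hPTS : PTS p (CuspForm.heckeAlgebra N 2 (↑S : Set ℕ)))
    (H : CuspForm.HeckeGaloisRepDatum N (↑S : Set ℕ) 𝒪 θ T) (σ : GQ) (c : ℤ)
    (hpts : ∀ Pt : PadicPoint p (CuspForm.heckeAlgebra N 2 (↑S : Set ℕ)),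
      PointHas Pt (fun O'' _ _ ρ => ρ.trace σ = ((c : ℤ) : O''))) :
    H.ρ.trace σ = ((c : ℤ) : T) := by
  have key := trace_poly_transfer hcheb hp𝒪 hNS hPTS H (ι := Fin 1) ![σ]
    (MvPolynomial.X 0 - MvPolynomial.C c) (fun Pt => (hpts Pt).imp (by
      intro O'' _ _ ρ hρ
      rw [map_sub, MvPolynomial.aeval_X, MvPolynomial.aeval_C, eq_intCast, sub_eq_zero]
      exact hρ))
  rw [map_sub, MvPolynomial.aeval_X, MvPolynomial.aeval_C, eq_intCast, sub_eq_zero] at key
  exact key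

/-- **Transfer of integral characteristic polynomials.** -/
theorem charpoly_int_transfer (hcheb : ChebStatement)
    (hp𝒪 : (p : 𝒪) ∈ IsLocalRing.maximalIdeal 𝒪)
    (hNS : ∀ q : ℕ, q.Prime → q ∣ N → q ∈ S)
    (hPTS : PTS p (CuspForm.heckeAlgebra N 2 (↑S : Set ℕ)))
    (H : CuspForm.HeckeGaloisRepDatum N (↑S : Set ℕ) 𝒪 θ T)
    (h2 : ∀ t : T, 2 * t = 0 → t = 0) (σ : GQ) (a d : ℤ)
    (hpts : ∀ Pt : PadicPoint p (CuspForm.heckeAlgebra N 2 (↑S : Set ℕ)),
      PointHas Pt (fun O'' _ _ ρ =>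
        LinearMap.charpoly (ρ.ρ σ) = X ^ 2 - C ((a : ℤ) : O'') * X + C ((d : ℤ) : O''))) :
    LinearMap.charpoly (H.ρ.ρ σ) = X ^ 2 - C ((a : ℤ) : T) * X + C ((d : ℤ) : T) := by
  -- the trace
  have htr : H.ρ.trace σ = (a : T) :=
    trace_eq_int_transfer hcheb hp𝒪 hNS hPTS H σ a (fun Pt => (hpts Pt).imp (by
      intro O'' _ _ ρ hρ
      have h1 := trace_pow_of_charpoly' ρ.finrank_eq (ρ.ρ σ) _ _ hρ 1
      rw [pow_one, powTr_one] at h1
      exact h1))
  -- the trace of the square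
  have htr2 : H.ρ.trace (σ ^ 2) = (a : T) * a - d * 2 := by
    have key := trace_eq_int_transfer hcheb hp𝒪 hNS hPTS H (σ ^ 2) (a * a - d * 2)
      (fun Pt => (hpts Pt).imp (by
        intro O'' _ _ ρ hρ
        have h1 := trace_pow_of_charpoly' ρ.finrank_eq (ρ.ρ σ) _ _ hρ 2
        rw [powTr_add_two, powTr_one, powTr_zero, ← map_pow] at h1
        show LinearMap.trace O'' ρ.V (ρ.ρ (σ ^ 2)) = _
        rw [h1]
        push_cast
        ring))
    rw [key]
    push_cast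
    ring
  -- the determinant
  have hdet : LinearMap.det (H.ρ.ρ σ) = (d : T) := by
    have h3 := trace_sq_of_finrank_two H.ρ.finrank_eq (H.ρ.ρ σ)
    rw [← map_pow] at h3
    have htr' : LinearMap.trace T H.ρ.V (H.ρ.ρ σ) = (a : T) := htr
    have htr2' : LinearMap.trace T H.ρ.V (H.ρ.ρ (σ ^ 2)) = (a : T) * a - d * 2 := htr2
    rw [htr', htr2'] at h3
    have h4 : 2 * (LinearMap.det (H.ρ.ρ σ) - (d : T)) = 0 := by
      linear_combination h3
    exact sub_eq_zero.mp (h2 _ h4)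
  rw [charpoly_eq_of_finrank_two H.ρ.finrank_eq (H.ρ.ρ σ), hdet]
  have htr' : LinearMap.trace T H.ρ.V (H.ρ.ρ σ) = (a : T) := htr
  rw [htr']

/-- The shape of row S34: unipotent characteristic polynomial `(X - 1) ^ 2`. -/
theorem charpoly_eq_X_sub_one_sq_of_points (hcheb : ChebStatement)
    (hp𝒪 : (p : 𝒪) ∈ IsLocalRing.maximalIdeal 𝒪)
    (hNS : ∀ q : ℕ, q.Prime → q ∣ N → q ∈ S)
    (hPTS : PTS p (CuspForm.heckeAlgebra N 2 (↑S : Set ℕ)))
    (H : CuspForm.HeckeGaloisRepDatum N (↑S : Set ℕ) 𝒪 θ T)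
    (h2 : ∀ t : T, 2 * t = 0 → t = 0) (σ : GQ)
    (hpts : ∀ Pt : PadicPoint p (CuspForm.heckeAlgebra N 2 (↑S : Set ℕ)),
      PointHas Pt (fun _ _ _ ρ => LinearMap.charpoly (ρ.ρ σ) = (X - 1) ^ 2)) :
    LinearMap.charpoly (H.ρ.ρ σ) = (X - 1) ^ 2 := by
  have key := charpoly_int_transfer hcheb hp𝒪 hNS hPTS H h2 σ 2 1 (fun Pt => (hpts Pt).imp (by
    intro _ _ _ ρ hρ
    rw [hρ]
    simp only [Int.cast_ofNat, Int.cast_one, map_ofNat, map_one]
    ring))
  rw [key]
  simp only [Int.cast_ofNat, Int.cast_one, map_ofNat, map_one]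
  ring

/-- Row S34 from point-level unipotence: if at every `p`-adic point the attached representation
is unipotent on inertia at `q`, so is `H.ρ` (for `𝒪` of characteristic zero). -/
theorem isUnipotentOnInertiaAt_of_points [CharZero 𝒪] (hcheb : ChebStatement)
    (hp𝒪 : (p : 𝒪) ∈ IsLocalRing.maximalIdeal 𝒪)
    (hNS : ∀ q : ℕ, q.Prime → q ∣ N → q ∈ S)
    (hPTS : PTS p (CuspForm.heckeAlgebra N 2 (↑S : Set ℕ)))
    (H : CuspForm.HeckeGaloisRepDatum N (↑S : Set ℕ) 𝒪 θ T) (q : ℕ)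
    (hpts : ∀ Pt : PadicPoint p (CuspForm.heckeAlgebra N 2 (↑S : Set ℕ)),
      PointHas Pt (fun _ _ _ ρ => ρ.IsUnipotentOnInertiaAt q)) :
    H.ρ.IsUnipotentOnInertiaAt q := by
  intro B hB σ hσ
  exact charpoly_eq_X_sub_one_sq_of_points hcheb hp𝒪 hNS hPTS H
    (two_mul_eq_zero_of_free (𝒪 := 𝒪)) σ
    fun Pt => (hpts Pt).imp fun _ _ _ ρ hρ => hρ B hB σ hσ

end Main

end Fermat.Agent.S31.H982
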