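import Fermat.Agent.S31.Defs

/-!
# Row S31 (helper982): trace of powers in rank 2 and local constancy of traces

Self-contained versions of the small algebra pieces used by the transfer principle
(`Fermat/Agent/S31/H982/Transfer.lean`).
-/

set_option autoImplicit false

open Polynomial

namespace Fermat.Agent.S31.H982

open Fermat.Agent.S31

section PowTr

variable {R : Type*} [CommRing R]

theorem powTr_zero (a d : R) : powTr a d 0 = 2 := by
  rw [powTr]

theorem powTr_one (a d : R) : powTr a d 1 = a := by
  rw [powTr]

theorem powTr_add_two (a d : R) (j : ℕ) :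
    powTr a d (j + 2) = a * powTr a d (j + 1) - d * powTr a d j := by
  rw [powTr]

/-- Ring homomorphisms commute with `powTr`. -/
theorem map_powTr' {R' : Type*} [CommRing R'] (φ : R →+* R') (a d : R) (j : ℕ) :
    φ (powTr a d j) = powTr (φ a) (φ d) j := by
  induction j using Nat.strong_induction_on with
  | _ j ih =>
    match j, ih with
    | 0, _ => rw [powTr_zero, powTr_zero, map_ofNat]
    | 1, _ => rw [powTr_one, powTr_one]
    | (j + 2), ih =>
      rw [powTr_add_two, powTr_add_two, map_sub, map_mul, map_mul, ih (j + 1) (by omega),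
        ih j (by omega)]

variable {M : Type*} [AddCommGroup M] [Module R M] [Module.Free R M] [Module.Finite R M]

/-- The trace of an endomorphism is minus the next-to-leading coefficient of its characteristic
polynomial. -/
theorem trace_eq_neg_nextCoeff_charpoly (f : Module.End R M) :
    LinearMap.trace R M f = -f.charpoly.nextCoeff := by
  classical
  let b := Module.Free.chooseBasis R M
  rw [LinearMap.trace_eq_matrix_trace R b, Matrix.trace_eq_neg_charpoly_nextCoeff,
    LinearMap.charpoly_toMatrix]

/-- **B1**.  Cayley–Hamilton in rank 2: the trace of `f ^ j` is `powTr a d j` if the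
characteristic polynomial of `f` is `X ^ 2 - a X + d`. -/
theorem trace_pow_of_charpoly' (hrk : Module.finrank R M = 2) (f : Module.End R M)
    (a d : R) (h : f.charpoly = X ^ 2 - C a * X + C d) (j : ℕ) :
    LinearMap.trace R M (f ^ j) = powTr a d j := by
  rcases subsingleton_or_nontrivial R with hR | hR
  · exact Subsingleton.elim _ _
  have hCH : f ^ 2 = a • f - d • (1 : Module.End R M) := by
    have h1 := LinearMap.aeval_self_charpoly f
    rw [h] at h1
    simp only [map_add, map_sub, map_mul, map_pow, aeval_X, aeval_C] at h1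
    rw [Algebra.algebraMap_eq_smul_one, Algebra.algebraMap_eq_smul_one] at h1
    rw [smul_mul_assoc, one_mul] at h1
    rw [← sub_eq_zero]
    rw [← h1]
    abel
  have htr1 : LinearMap.trace R M f = a := by
    have hdeg : f.charpoly.natDegree = 2 := by
      rw [LinearMap.charpoly_natDegree, hrk]
    rw [trace_eq_neg_nextCoeff_charpoly,
      nextCoeff_of_natDegree_pos (by rw [hdeg]; norm_num), hdeg, h]
    simp [coeff_X, coeff_C]
  induction j using Nat.strong_induction_on with
  | _ j ih =>
    match j, ih with
    | 0, _ =>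
      rw [pow_zero, LinearMap.trace_one, hrk, powTr_zero]
      norm_num
    | 1, _ => rw [pow_one, htr1, powTr_one]
    | (j + 2), ih =>
      have hpow : f ^ (j + 2) = a • f ^ (j + 1) - d • f ^ j := by
        rw [pow_add, hCH, mul_sub, mul_smul_comm, mul_smul_comm, mul_one, ← pow_succ]
      rw [hpow, map_sub, map_smul, map_smul, ih (j + 1) (by omega), ih j (by omega),
        powTr_add_two, smul_eq_mul, smul_eq_mul]

end PowTr

section TraceCongr

/-- A linear map sends `I • ⊤` into `I • ⊤`. -/
theorem map_mem_smul_top {R M : Type*} [CommRing R] [AddCommGroup M] [Module R M]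
    (I : Ideal R) (f : Module.End R M) {x : M} (hx : x ∈ I • (⊤ : Submodule R M)) :
    f x ∈ I • (⊤ : Submodule R M) := by
  refine Submodule.smul_induction_on hx ?_ ?_
  · intro a ha w _
    rw [map_smul]
    exact Submodule.smul_mem_smul ha Submodule.mem_top
  · intro x y hx hy
    rw [map_add]
    exact Submodule.add_mem _ hx hy

/-- Coordinates of an element of `I • ⊤` lie in `I`. -/
theorem repr_mem_of_mem_smul_top {R M ι : Type*} [CommRing R] [AddCommGroup M] [Module R M]
    (b : Module.Basis ι R M) (I : Ideal R) {x : M} (hx : x ∈ I • (⊤ : Submodule R M)) (i : ι) :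
    b.repr x i ∈ I := by
  refine Submodule.smul_induction_on hx ?_ ?_
  · intro a ha w _
    rw [map_smul, Finsupp.smul_apply, smul_eq_mul]
    exact I.mul_mem_right _ ha
  · intro x y hx hy
    rw [map_add, Finsupp.add_apply]
    exact I.add_mem hx hy

/-- If an endomorphism of a finite free module has image in `I • ⊤`, its trace lies in `I`. -/
theorem trace_mem_of_forall_mem_smul_top {R M : Type*} [CommRing R] [AddCommGroup M]
    [Module R M] [Module.Free R M] [Module.Finite R M] (I : Ideal R) (f : Module.End R M)
    (hf : ∀ v, f v ∈ I • (⊤ : Submodule R M)) : LinearMap.trace R M f ∈ I := by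
  classical
  let b := Module.Free.chooseBasis R M
  rw [LinearMap.trace_eq_matrix_trace R b, Matrix.trace]
  refine I.sum_mem fun i _ => ?_
  rw [Matrix.diag_apply, LinearMap.toMatrix_apply]
  exact repr_mem_of_mem_smul_top b I (hf _) i

variable {A : Type} [CommRing A] [IsLocalRing A]

/-- **C**.  Traces are locally constant modulo `m ^ n`. -/
theorem trace_congr_of_agree' (ρ : GaloisRepAdic A) (n : ℕ) :
    ∃ L : IntermediateField ℚ Qb, FiniteDimensional ℚ L ∧
      ∀ g g' : GQ, (∀ x ∈ L, g x = g' x) →
        ρ.trace g - ρ.trace g' ∈ IsLocalRing.maximalIdeal A ^ n := by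
  obtain ⟨L, hL, h1⟩ := ρ.isAdicContinuous n
  refine ⟨L, hL, fun g g' hgg' => ?_⟩
  have hσ : ∀ x ∈ L, (g'⁻¹ * g) x = x := by
    intro x hx
    rw [AlgEquiv.mul_apply, hgg' x hx]
    exact g'.symm_apply_apply x
  have hg : g = g' * (g'⁻¹ * g) := by group
  have key : ∀ v, (ρ.ρ g - ρ.ρ g') v ∈
      (IsLocalRing.maximalIdeal A ^ n) • (⊤ : Submodule A ρ.V) := by
    intro v
    have h2 : (ρ.ρ g - ρ.ρ g') v = ρ.ρ g' (ρ.ρ (g'⁻¹ * g) v - v) := by
      conv_lhs => rw [hg]
      rw [map_mul, LinearMap.sub_apply, Module.End.mul_apply, map_sub]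
    rw [h2]
    exact map_mem_smul_top _ _ (h1 _ hσ v)
  have := trace_mem_of_forall_mem_smul_top _ _ key
  rwa [map_sub] at this

end TraceCongr

end Fermat.Agent.S31.H982
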