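import Fermat.Agent.S31.H982.TracePow

/-!
# Row S31 (helper982): the transfer principle for polynomial trace identities

Let `H : CuspForm.HeckeGaloisRepDatum N ↑S 𝒪 θ T` and write `𝕋 = CuspForm.heckeAlgebra N 2 ↑S`.
Let `g : ι → G_ℚ` be any family of Galois elements and `P ∈ ℤ[X_k : k ∈ ι]`.

**Transfer principle** (`trace_poly_transfer`).  Assume Frobenius density (`ChebStatement`) and
that the `p`-adic points of `𝕋` are topologically separating (`PTS p 𝕋`).  If at every `p`-adic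
point `Pt` of `𝕋` there is a representation `ρ''` over a discrete valuation ring containing
`Pt.O` with the Frobenius characteristic polynomials prescribed by `Pt.χ` and with
`P (tr ρ''(g_k)) = 0`, then `P (tr H.ρ (g_k)) = 0` in `T`.

Consequences:
* `trace_mul_eq_of_points`, `unramified_of_parts'` : row S31 (piece E), with piece A as a
  hypothesis;
* `charpoly_eq_of_points` : the shape needed for row S34 (`charpoly = (X - 1) ^ 2`).
-/

set_option autoImplicit false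

open Polynomial

namespace Fermat.Agent.S31.H982

open Fermat.Agent.S31

section Algebra

/-- For an injective ring homomorphism from a discrete valuation ring to a Noetherian local ring,
the preimages of the powers of the maximal ideal are cofinal among the powers of the maximal
ideal. -/
theorem exists_pow_comap_le {O O'' : Type*} [CommRing O] [IsDomain O]
    [IsDiscreteValuationRing O] [CommRing O''] [IsLocalRing O''] [IsNoetherianRing O'']
    (φ : O →+* O'') (hφ : Function.Injective φ) (n' : ℕ) :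
    ∃ k : ℕ, ∀ x : O, φ x ∈ IsLocalRing.maximalIdeal O'' ^ k →
      x ∈ IsLocalRing.maximalIdeal O ^ n' := by
  classical
  obtain ⟨ϖ, hϖ⟩ := IsDiscreteValuationRing.exists_irreducible O
  have hϖm : ϖ ∈ IsLocalRing.maximalIdeal O := by
    rw [IsLocalRing.mem_maximalIdeal]
    exact hϖ.not_isUnit
  have hex : ∀ a : ℕ, ∃ k : ℕ, φ (ϖ ^ a) ∉ IsLocalRing.maximalIdeal O'' ^ k := by
    intro a
    by_contra hcon
    simp only [not_exists, not_not] at hcon
    have h0 : φ (ϖ ^ a) ∈ (⨅ i, IsLocalRing.maximalIdeal O'' ^ i : Ideal O'') := by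
      rw [Ideal.mem_iInf]
      exact hcon
    rw [Ideal.iInf_pow_eq_bot_of_isLocalRing _ Ideal.IsPrime.ne_top', Ideal.mem_bot] at h0
    have h1 : ϖ ^ a = 0 := hφ (by rw [h0, map_zero])
    exact pow_ne_zero a hϖ.ne_zero h1
  choose kf hkf using hex
  refine ⟨(Finset.range n').sup kf, fun x hx => ?_⟩
  rcases eq_or_ne x 0 with rfl | hx0
  · exact Ideal.zero_mem _
  obtain ⟨a, u, rfl⟩ := IsDiscreteValuationRing.eq_unit_mul_pow_irreducible hx0 hϖ
  by_cases ha : n' ≤ a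
  · exact Ideal.mul_mem_left _ _ (Ideal.pow_le_pow_right ha (Ideal.pow_mem_pow hϖm a))
  · exfalso
    rw [not_le] at ha
    apply hkf a
    have hle : kf a ≤ (Finset.range n').sup kf :=
      Finset.le_sup (f := kf) (Finset.mem_range.mpr ha)
    have hx' := Ideal.pow_le_pow_right hle hx
    rw [map_mul] at hx'
    have hu : IsUnit (φ (u : O)) := u.isUnit.map φ
    exact (Ideal.unit_mul_mem_iff_mem _ hu).mp hx'

/-- Ring homomorphisms commute with the evaluation of integer polynomials. -/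
theorem map_aeval_int {R R' ι : Type*} [CommRing R] [CommRing R'] (ψ : R →+* R')
    (P : MvPolynomial ι ℤ) (x : ι → R) :
    ψ (MvPolynomial.aeval x P) = MvPolynomial.aeval (fun k => ψ (x k)) P := by
  have hψ : ψ.comp (algebraMap ℤ R) = algebraMap ℤ R' := RingHom.ext_int _ _
  rw [MvPolynomial.map_aeval, MvPolynomial.aeval_eq_eval₂Hom, hψ]

/-- Integer polynomials preserve congruences modulo an ideal. -/
theorem aeval_sub_aeval_mem {R ι : Type*} [CommRing R] (I : Ideal R) (P : MvPolynomial ι ℤ)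
    (x y : ι → R) (h : ∀ k, x k - y k ∈ I) :
    MvPolynomial.aeval x P - MvPolynomial.aeval y P ∈ I := by
  have hxy : (fun k => Ideal.Quotient.mk I (x k)) = fun k => Ideal.Quotient.mk I (y k) :=
    funext fun k => Ideal.Quotient.eq.mpr (h k)
  rw [← Ideal.Quotient.eq, map_aeval_int, map_aeval_int, hxy]

/-- Finitely many finite-dimensional intermediate fields lie in a common one. -/
theorem exists_finiteDimensional_ge {α : Type*} (F : List α)
    (L : α → IntermediateField ℚ Qb) (hL : ∀ a ∈ F, FiniteDimensional ℚ (L a)) :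
    ∃ E : IntermediateField ℚ Qb, FiniteDimensional ℚ E ∧ ∀ a ∈ F, L a ≤ E := by
  induction F with
  | nil => exact ⟨⊥, inferInstance, fun a ha => absurd ha (List.not_mem_nil)⟩
  | cons a F ih =>
    obtain ⟨E, hE, hle⟩ := ih fun b hb => hL b (List.mem_cons_of_mem _ hb)
    haveI := hE
    haveI := hL a List.mem_cons_self
    refine ⟨L a ⊔ E, inferInstance, fun b hb => ?_⟩
    rcases List.mem_cons.mp hb with rfl | hb
    · exact le_sup_left
    · exact (hle b hb).trans le_sup_right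

end Algebra

section Frob

variable {N : ℕ} [NeZero N] {S : Finset ℕ}

/-- `ψ (T_ℓ)` and `ℓ` give the characteristic polynomial of `ρ` at every Frobenius element at every
prime `ℓ ∉ S`, `ℓ ∤ N`. -/
def FrobCharpoly {A : Type} [CommRing A] [IsLocalRing A] (ρ : GaloisRepAdic A)
    (ψ : CuspForm.heckeAlgebra N 2 (↑S : Set ℕ) →+* A) : Prop :=
  ∀ (ℓ : ℕ) (hℓ : ℓ.Prime) (hℓN : ¬ ℓ ∣ N) (hℓS : ℓ ∉ (↑S : Set ℕ)),
    ∀ B : ValuationSubring Qb, B.LiesOverPrime ℓ → ∀ σ : GQ, B.IsFrobeniusAt σ ℓ →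
      LinearMap.charpoly (ρ.ρ σ) =
        X ^ 2 - C (ψ (CuspForm.heckeAlgebra.T hℓ hℓN hℓS)) * X + C ((ℓ : A))

/-- `h` is the Hecke element `powTr T_ℓ ℓ j`, for a Frobenius element `φ` at a prime `ℓ ∉ S` with
`φ ^ j = g` on `L`. -/
def Approx (L : IntermediateField ℚ Qb) (g : GQ)
    (h : CuspForm.heckeAlgebra N 2 (↑S : Set ℕ)) : Prop :=
  ∃ (ℓ : ℕ) (hℓ : ℓ.Prime) (hℓN : ¬ ℓ ∣ N) (hℓS : ℓ ∉ (↑S : Set ℕ))
    (B : ValuationSubring Qb) (φ : GQ) (j : ℕ),
    B.LiesOverPrime ℓ ∧ B.IsFrobeniusAt φ ℓ ∧ (∀ x ∈ L, (φ ^ j) x = g x) ∧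
      h = powTr (CuspForm.heckeAlgebra.T hℓ hℓN hℓS)
        ((ℓ : ℕ) : CuspForm.heckeAlgebra N 2 (↑S : Set ℕ)) j

theorem Approx.mono {L L' : IntermediateField ℚ Qb} (hLL' : L' ≤ L) {g : GQ}
    {h : CuspForm.heckeAlgebra N 2 (↑S : Set ℕ)} (hA : Approx L g h) : Approx L' g h := by
  obtain ⟨ℓ, hℓ, hℓN, hℓS, B, φ, j, hB, hφ, hag, hh⟩ := hA
  exact ⟨ℓ, hℓ, hℓN, hℓS, B, φ, j, hB, hφ, fun x hx => hag x (hLL' hx), hh⟩

/-- Frobenius density provides approximations on every finite extension. -/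
theorem exists_approx (hcheb : ChebStatement) (hNS : ∀ q : ℕ, q.Prime → q ∣ N → q ∈ S)
    (E : IntermediateField ℚ Qb) (hE : FiniteDimensional ℚ E) (g : GQ) :
    ∃ h : CuspForm.heckeAlgebra N 2 (↑S : Set ℕ), Approx E g h := by
  obtain ⟨ℓ, B, φ, _, j, hℓ, hℓS, hB, hφ, _, _, hag⟩ := hcheb E hE g S
  have hℓN : ¬ ℓ ∣ N := fun hdvd => hℓS (hNS ℓ hℓ hdvd)
  have hℓS' : ℓ ∉ (↑S : Set ℕ) := by simpa using hℓS
  exact ⟨_, ℓ, hℓ, hℓN, hℓS', B, φ, j, hB, hφ, hag, rfl⟩

/-- **Key lemma.**  Modulo `m ^ n`, the trace of `ρ(g)` is the image of any approximating Hecke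
element (on a suitable finite extension depending only on `ρ` and `n`). -/
theorem exists_field_trace_sub_mem {A : Type} [CommRing A] [IsLocalRing A]
    (ρ : GaloisRepAdic A) (ψ : CuspForm.heckeAlgebra N 2 (↑S : Set ℕ) →+* A)
    (hρ : FrobCharpoly ρ ψ) (n : ℕ) :
    ∃ L : IntermediateField ℚ Qb, FiniteDimensional ℚ L ∧
      ∀ (g : GQ) (h : CuspForm.heckeAlgebra N 2 (↑S : Set ℕ)), Approx L g h →
        ρ.trace g - ψ h ∈ IsLocalRing.maximalIdeal A ^ n := by
  obtain ⟨L, hL, hC⟩ := trace_congr_of_agree' ρ n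
  refine ⟨L, hL, ?_⟩
  rintro g h ⟨ℓ, hℓ, hℓN, hℓS, B, φ, j, hB, hφ, hag, rfl⟩
  have h1 := hρ ℓ hℓ hℓN hℓS B hB φ hφ
  have h2 := trace_pow_of_charpoly' ρ.finrank_eq (ρ.ρ φ) _ _ h1 j
  have h3 : ρ.trace (φ ^ j) =
      ψ (powTr (CuspForm.heckeAlgebra.T hℓ hℓN hℓS)
        ((ℓ : ℕ) : CuspForm.heckeAlgebra N 2 (↑S : Set ℕ)) j) := by
    rw [map_powTr', map_natCast, ← h2]
    show LinearMap.trace A ρ.V (ρ.ρ (φ ^ j)) = _
    rw [map_pow]
  rw [← h3]
  exact hC g (φ ^ j) fun x hx => (hag x hx).symm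

end Frob

section Main

variable {p : ℕ} {N : ℕ} [NeZero N] {S : Finset ℕ}

/-- Point-level input: at the `p`-adic point `Pt` of the Hecke algebra there is a representation
`ρ` over a discrete valuation ring `𝒪''` containing `Pt.O`, with the Frobenius characteristic
polynomials prescribed by `Pt.χ`, such that `Q 𝒪'' ρ` holds. -/
def PointHas (Pt : PadicPoint p (CuspForm.heckeAlgebra N 2 (↑S : Set ℕ)))
    (Q : ∀ (O'' : Type) [CommRing O''] [IsLocalRing O''], GaloisRepAdic O'' → Prop) : Prop :=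
  ∃ (𝒪'' : Type) (_ : CommRing 𝒪'') (_ : IsDomain 𝒪'') (_ : IsDiscreteValuationRing 𝒪'')
    (_ : Algebra Pt.O 𝒪''),
    Function.Injective (algebraMap Pt.O 𝒪'') ∧
    ∃ ρ : GaloisRepAdic 𝒪'', FrobCharpoly ρ ((algebraMap Pt.O 𝒪'').comp Pt.χ) ∧ Q 𝒪'' ρ

theorem PointHas.imp {Pt : PadicPoint p (CuspForm.heckeAlgebra N 2 (↑S : Set ℕ))}
    {Q Q' : ∀ (O'' : Type) [CommRing O''] [IsLocalRing O''], GaloisRepAdic O'' → Prop}
    (hQ : ∀ (O'' : Type) [CommRing O''] [IsLocalRing O''] (ρ : GaloisRepAdic O''),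
      Q O'' ρ → Q' O'' ρ) (h : PointHas Pt Q) : PointHas Pt Q' := by
  obtain ⟨O'', i1, i2, i3, i4, hinj, ρ, hfrob, hq⟩ := h
  exact ⟨O'', i1, i2, i3, i4, hinj, ρ, hfrob, hQ O'' ρ hq⟩

/-- The frozen statement S30 provides, at every `p`-adic point, a representation which is
unramified outside `N p`. -/
theorem pointHas_of_S30 (h30 : S30Statement) (hp : p.Prime) (hpS : p ∈ S)
    (hNS : ∀ q : ℕ, q.Prime → q ∣ N → q ∈ S)
    (Pt : PadicPoint p (CuspForm.heckeAlgebra N 2 (↑S : Set ℕ))) :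
    PointHas Pt (fun _ _ _ ρ => ∀ q : ℕ, q.Prime → ¬ q ∣ N → q ≠ p → ρ.IsUnramifiedAt q) := by
  haveI : Fact p.Prime := ⟨hp⟩
  obtain ⟨O'', i1, i2, i3, _, _, _, i4, _, _, hinj, ρ, hfrob, hunr⟩ :=
    h30 p N S hpS hNS Pt.O Pt.hp Pt.χ
  exact ⟨O'', i1, i2, i3, i4, hinj, ρ, hfrob, hunr⟩

/-- **Point-level lemma.**  If the identity `P (tr ρ(g_k)) = 0` holds at the point `Pt`, then
for any approximating Hecke elements `h_k` (on a suitable finite extension), `Pt.χ (P (h_k))` is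
small. -/
theorem exists_field_point {ι : Type*} (g : ι → GQ) (P : MvPolynomial ι ℤ)
    (Pt : PadicPoint p (CuspForm.heckeAlgebra N 2 (↑S : Set ℕ)))
    (hPt : PointHas Pt
      (fun _ _ _ ρ => MvPolynomial.aeval (fun k => ρ.trace (g k)) P = 0)) (n' : ℕ) :
    ∃ L : IntermediateField ℚ Qb, FiniteDimensional ℚ L ∧
      ∀ h : ι → CuspForm.heckeAlgebra N 2 (↑S : Set ℕ), (∀ k, Approx L (g k) (h k)) →
        Pt.χ (MvPolynomial.aeval h P) ∈ IsLocalRing.maximalIdeal Pt.O ^ n' := by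
  obtain ⟨O'', i1, i2, i3, i4, hinj, ρ, hfrob, hid⟩ := hPt
  obtain ⟨k'', hk''⟩ := exists_pow_comap_le (algebraMap Pt.O O'') hinj n'
  obtain ⟨L, hL, hKL⟩ := exists_field_trace_sub_mem ρ _ hfrob k''
  refine ⟨L, hL, fun h hh => hk'' _ ?_⟩
  have h1 := aeval_sub_aeval_mem (IsLocalRing.maximalIdeal O'' ^ k'') P
    (fun k => ρ.trace (g k)) (fun k => ((algebraMap Pt.O O'').comp Pt.χ) (h k))
    (fun k => hKL (g k) (h k) (hh k))
  rw [hid, zero_sub, neg_mem_iff, ← map_aeval_int ((algebraMap Pt.O O'').comp Pt.χ) P h] at h1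
  exact h1

variable {𝒪 : Type} [CommRing 𝒪] [IsDomain 𝒪] [IsDiscreteValuationRing 𝒪]
  [IsAdicComplete (IsLocalRing.maximalIdeal 𝒪) 𝒪]
  {θ : CuspForm.heckeAlgebra N 2 (↑S : Set ℕ) →+* IsLocalRing.ResidueField 𝒪}
  {T : Type} [CommRing T] [IsLocalRing T] [IsNoetherianRing T]
  [IsAdicComplete (IsLocalRing.maximalIdeal T) T] [Algebra 𝒪 T] [IsLocalHom (algebraMap 𝒪 T)]
  [Module.Finite 𝒪 T] [Module.Free 𝒪 T]

/-- **Transfer principle.**  A polynomial identity (with integer coefficients) between traces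
of finitely or infinitely many Galois elements, valid at every `p`-adic point of the Hecke
algebra, is valid for the representation of a Hecke–Galois datum. -/
theorem trace_poly_transfer (hcheb : ChebStatement)
    (hp𝒪 : (p : 𝒪) ∈ IsLocalRing.maximalIdeal 𝒪)
    (hNS : ∀ q : ℕ, q.Prime → q ∣ N → q ∈ S)
    (hPTS : PTS p (CuspForm.heckeAlgebra N 2 (↑S : Set ℕ)))
    (H : CuspForm.HeckeGaloisRepDatum N (↑S : Set ℕ) 𝒪 θ T)
    {ι : Type*} (g : ι → GQ) (P : MvPolynomial ι ℤ)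
    (hpts : ∀ Pt : PadicPoint p (CuspForm.heckeAlgebra N 2 (↑S : Set ℕ)),
      PointHas Pt (fun _ _ _ ρ => MvPolynomial.aeval (fun k => ρ.trace (g k)) P = 0)) :
    MvPolynomial.aeval (fun k => H.ρ.trace (g k)) P = 0 := by
  have hHfrob : FrobCharpoly H.ρ H.π :=
    fun ℓ hℓ hℓN hℓS B hB σ hσ => H.charpoly_frob ℓ hℓ hℓN hℓS B hB σ hσ
  suffices hall : ∀ n : ℕ, MvPolynomial.aeval (fun k => H.ρ.trace (g k)) P ∈
      IsLocalRing.maximalIdeal T ^ n by
    have h0 : MvPolynomial.aeval (fun k => H.ρ.trace (g k)) P ∈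
        (⨅ i, IsLocalRing.maximalIdeal T ^ i : Ideal T) := by
      rw [Ideal.mem_iInf]
      exact hall
    rwa [Ideal.iInf_pow_eq_bot_of_isLocalRing _ Ideal.IsPrime.ne_top', Ideal.mem_bot] at h0
  intro n
  -- the prime of the Hecke algebra
  have hprime : ((IsLocalRing.maximalIdeal T).comap H.π).IsPrime := Ideal.comap_isPrime _ _
  have hpT : (p : T) ∈ IsLocalRing.maximalIdeal T := by
    have := map_nonunit (algebraMap 𝒪 T) (p : 𝒪) hp𝒪
    rwa [map_natCast] at this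
  have hpm : ((p : ℕ) : CuspForm.heckeAlgebra N 2 (↑S : Set ℕ)) ∈
      (IsLocalRing.maximalIdeal T).comap H.π := by
    rw [Ideal.mem_comap, map_natCast]
    exact hpT
  obtain ⟨F, n', hF⟩ := hPTS _ hprime hpm n
  -- fields for the points
  have hL := fun Pt => exists_field_point g P Pt (hpts Pt) n'
  choose LPt hLfin hLprop using hL
  obtain ⟨E0, hE0, hE0le⟩ := exists_finiteDimensional_ge F LPt (fun a _ => hLfin a)
  -- field for `H.ρ`
  obtain ⟨L0, hL0, hKL0⟩ := exists_field_trace_sub_mem H.ρ H.π hHfrob n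
  haveI := hE0
  haveI := hL0
  have hE : FiniteDimensional ℚ ↥(L0 ⊔ E0) := inferInstance
  -- approximating Hecke elements
  have happ := fun k => exists_approx hcheb hNS (L0 ⊔ E0) hE (g k)
  choose h hh using happ
  have hmem : MvPolynomial.aeval h P ∈ ((IsLocalRing.maximalIdeal T).comap H.π) ^ n :=
    hF _ fun Pt hPt => hLprop Pt h fun k => (hh k).mono ((hE0le Pt hPt).trans le_sup_right)
  have hπ : H.π (MvPolynomial.aeval h P) ∈ IsLocalRing.maximalIdeal T ^ n := by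
    have h1 : H.π (MvPolynomial.aeval h P) ∈
        Ideal.map H.π (((IsLocalRing.maximalIdeal T).comap H.π) ^ n) :=
      Ideal.mem_map_of_mem _ hmem
    rw [Ideal.map_pow] at h1
    exact Ideal.pow_right_mono Ideal.map_comap_le n h1
  have hcong := aeval_sub_aeval_mem (IsLocalRing.maximalIdeal T ^ n) P
    (fun k => H.ρ.trace (g k)) (fun k => H.π (h k))
    (fun k => hKL0 _ _ ((hh k).mono le_sup_left))
  rw [← map_aeval_int H.π P h] at hcong
  have := Ideal.add_mem _ hcong hπ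
  rwa [sub_add_cancel] at this

/-- Transfer of `tr ρ(g τ) = tr ρ(g)`. -/
theorem trace_mul_eq_of_points (hcheb : ChebStatement)
    (hp𝒪 : (p : 𝒪) ∈ IsLocalRing.maximalIdeal 𝒪)
    (hNS : ∀ q : ℕ, q.Prime → q ∣ N → q ∈ S)
    (hPTS : PTS p (CuspForm.heckeAlgebra N 2 (↑S : Set ℕ)))
    (H : CuspForm.HeckeGaloisRepDatum N (↑S : Set ℕ) 𝒪 θ T) (τ : GQ)
    (hpts : ∀ Pt : PadicPoint p (CuspForm.heckeAlgebra N 2 (↑S : Set ℕ)),
      PointHas Pt (fun _ _ _ ρ => ρ.ρ τ = 1)) (g : GQ) :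
    H.ρ.trace (g * τ) = H.ρ.trace g := by
  have key := trace_poly_transfer hcheb hp𝒪 hNS hPTS H (ι := Fin 2) ![g * τ, g]
    (MvPolynomial.X 0 - MvPolynomial.X 1) (fun Pt => (hpts Pt).imp (by
      intro O'' _ _ ρ hρ
      simp only [map_sub, MvPolynomial.aeval_X, Matrix.cons_val_zero, Matrix.cons_val_one]
      rw [sub_eq_zero]
      show LinearMap.trace O'' ρ.V (ρ.ρ (g * τ)) = LinearMap.trace O'' ρ.V (ρ.ρ g)
      rw [map_mul, hρ, mul_one]))
  simp only [map_sub, MvPolynomial.aeval_X, Matrix.cons_val_zero, Matrix.cons_val_one] at key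
  exact sub_eq_zero.mp key

/-- **Piece E of row S31**, with piece A (the trace criterion for `H.ρ`) as a hypothesis. -/
theorem unramified_of_parts' (h30 : S30Statement) (hcheb : ChebStatement) (hp : p.Prime)
    (hp𝒪 : (p : 𝒪) ∈ IsLocalRing.maximalIdeal 𝒪) (hpS : p ∈ S)
    (hNS : ∀ q : ℕ, q.Prime → q ∣ N → q ∈ S)
    (hPTS : PTS p (CuspForm.heckeAlgebra N 2 (↑S : Set ℕ)))
    (H : CuspForm.HeckeGaloisRepDatum N (↑S : Set ℕ) 𝒪 θ T)
    (hA : ∀ τ : GQ, (∀ g : GQ, H.ρ.trace (g * τ) = H.ρ.trace g) → H.ρ.ρ τ = 1)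
    (q : ℕ) (hq : q.Prime) (hqS : q ∉ S) :
    H.ρ.IsUnramifiedAt q := by
  intro B hB τ hτ
  have hqN : ¬ q ∣ N := fun hdvd => hqS (hNS q hq hdvd)
  have hqp : q ≠ p := fun h => hqS (h ▸ hpS)
  refine hA τ (trace_mul_eq_of_points hcheb hp𝒪 hNS hPTS H τ fun Pt => ?_)
  exact (pointHas_of_S30 h30 hp hpS hNS Pt).imp fun O'' _ _ ρ hρ => hρ q hq hqN hqp B hB τ hτ

end Main

end Fermat.Agent.S31.H982
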